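import Fermat.Agent.ExistenceTheorem.Transfer
import Fermat.Agent.ExistenceTheorem.RayMaps

/-!
# Unramified primes in Galois extensions

Powers of Frobenius elements, the residue degree as the order of the Artin symbol, the number of
primes above and the extension of an unramified prime.
-/

set_option autoImplicit false
set_option linter.unusedSectionVars false
set_option linter.style.haveILetI false

noncomputable section

open NumberField IsDedekindDomain Finset
open scoped Pointwise nonZeroDivisors Classical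

namespace FA.PrincipalIdeal

open FA.ArtinRec

variable {K L : Type*} [Field K] [NumberField K] [Field L] [NumberField L] [Algebra K L]
  [IsGalois K L]

theorem frob_pow_sub_mem {Q : HeightOneSpectrum (𝓞 L)} {τ : L ≃ₐ[K] L}
    (hτ : IsArithFrobAt (𝓞 K) τ Q.asIdeal) (i : ℕ) (x : 𝓞 L) :
    τ ^ i • x - x ^ Nat.card (𝓞 K ⧸ (belowP K Q).asIdeal) ^ i ∈ Q.asIdeal := by
  induction i generalizing x with
  | zero => simp
  | succ i ih =>
    rw [pow_succ', mul_smul, pow_succ, pow_mul, ← Ideal.Quotient.eq, map_pow,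
      ← Ideal.Quotient.eq.2 (ih x), ← map_pow, Ideal.Quotient.eq]
    exact hτ _

theorem card_residue_eq_pow (Q : HeightOneSpectrum (𝓞 L)) :
    Nat.card (𝓞 L ⧸ Q.asIdeal) =
      Nat.card (𝓞 K ⧸ (belowP K Q).asIdeal) ^ fDeg L (belowP K Q) := by
  have h := congrArg Ideal.absNorm (relNorm_prime (K := K) Q)
  rwa [Ideal.absNorm_relNorm, map_pow, Ideal.absNorm_apply, Submodule.cardQuot_apply,
    Ideal.absNorm_apply, Submodule.cardQuot_apply] at h

/-- **The order of the Artin symbol of an unramified prime is the residue degree.** -/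
theorem orderOf_artinAt [IsMulCommutative (L ≃ₐ[K] L)] {v : HeightOneSpectrum (𝓞 K)} (h : ¬ IsRam L v) :
    orderOf (artinAt L v) = fDeg L v := by
  refine le_antisymm (orderOf_le_of_pow_eq_one (Nat.pos_of_ne_zero (fDeg_ne_zero v))
    (artinAt_pow_fDeg h)) ?_
  obtain ⟨Q, rfl, hτ⟩ := artinAt_spec (L := L) v
  set m := orderOf (artinAt L (belowP K Q))
  have hm : 0 < m := orderOf_pos _
  set q := Nat.card (𝓞 K ⧸ (belowP K Q).asIdeal) with hq
  haveI := (belowP K Q).isMaximal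
  haveI := (belowP K Q).isPrime
  haveI : Finite (𝓞 K ⧸ (belowP K Q).asIdeal) :=
    Ideal.finiteQuotientOfFreeOfNeBot _ (belowP K Q).ne_bot
  have hq1 : 1 < q := by
    haveI := Ideal.Quotient.nontrivial_iff.2 (belowP K Q).isPrime.ne_top
    exact Finite.one_lt_card
  haveI := Q.isMaximal
  haveI : Finite (𝓞 L ⧸ Q.asIdeal) := Ideal.finiteQuotientOfFreeOfNeBot _ Q.ne_bot
  let _ : Field (𝓞 L ⧸ Q.asIdeal) := Ideal.Quotient.field _
  haveI := Fintype.ofFinite (𝓞 L ⧸ Q.asIdeal)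
  have hfix : ∀ z : 𝓞 L ⧸ Q.asIdeal, z ^ q ^ m = z := fun z => by
    obtain ⟨x, rfl⟩ := Ideal.Quotient.mk_surjective z
    have h1 := frob_pow_sub_mem hτ m x
    rw [pow_orderOf_eq_one, one_smul, ← Ideal.Quotient.eq, map_pow] at h1
    exact h1.symm
  obtain ⟨g, hg⟩ := IsCyclic.exists_generator (α := (𝓞 L ⧸ Q.asIdeal)ˣ)
  have hord := orderOf_eq_card_of_forall_mem_zpowers hg
  have hpos : 1 < q ^ m := Nat.one_lt_pow hm.ne' hq1
  have hdvd : orderOf g ∣ q ^ m - 1 := by
    refine orderOf_dvd_of_pow_eq_one (mul_left_cancel (a := g) ?_)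
    rw [← pow_succ', Nat.sub_add_cancel hpos.le, mul_one]
    exact Units.ext (by rw [Units.val_pow_eq_pow_val, hfix])
  rw [hord, Nat.card_units, card_residue_eq_pow (K := K) Q, ← hq] at hdvd
  have h2 := Nat.le_of_dvd (by omega) hdvd
  exact (Nat.pow_le_pow_iff_right hq1).1 (by
    have := Nat.one_le_pow (fDeg L (belowP K Q)) q (by omega)
    omega)

theorem card_over_mul_fDeg {v : HeightOneSpectrum (𝓞 K)} (h : ¬ IsRam L v) :
    Nat.card {Q : HeightOneSpectrum (𝓞 L) // belowP K Q = v} * fDeg L v =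
      Module.finrank K L := by
  haveI : Finite {Q : HeightOneSpectrum (𝓞 L) // belowP K Q = v} :=
    (finite_belowP (L := L) v).to_subtype
  haveI : Nonempty {Q : HeightOneSpectrum (𝓞 L) // belowP K Q = v} :=
    let ⟨Q, hQ⟩ := exists_belowP K L v; ⟨⟨Q, hQ⟩⟩
  haveI := v.isMaximal
  obtain ⟨Q, hQ⟩ := exists_belowP K L v
  haveI : Q.asIdeal.LiesOver v.asIdeal := ⟨(congrArg HeightOneSpectrum.asIdeal hQ).symm⟩
  have hfund := Ideal.ncard_primesOver_mul_ramificationIdxIn_mul_inertiaDegIn v.asIdeal (𝓞 L)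
    (L ≃ₐ[K] L)
  have he : v.asIdeal.ramificationIdxIn (𝓞 L) = 1 := by
    rw [Ideal.ramificationIdxIn_eq_ramificationIdx v.asIdeal Q.asIdeal (L ≃ₐ[K] L),
      ← Ideal.ramificationIdx'_eq_ramificationIdx v.asIdeal Q.asIdeal v.ne_bot]
    have h1 := eIdx_eq_one (K := K) (Q := Q) (by rwa [hQ])
    rwa [eIdx, hQ] at h1
  have hcard : (v.asIdeal.primesOver (𝓞 L)).ncard =
      Nat.card {Q : HeightOneSpectrum (𝓞 L) // belowP K Q = v} := by
    rw [← Nat.card_coe_set_eq]
    refine (Nat.card_eq_of_bijective (fun P : {Q : HeightOneSpectrum (𝓞 L) // belowP K Q = v} =>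
      (⟨P.1.asIdeal, P.1.isPrime, ⟨(congrArg HeightOneSpectrum.asIdeal P.2).symm⟩⟩ :
        v.asIdeal.primesOver (𝓞 L))) ⟨fun a b h => Subtype.ext (HeightOneSpectrum.ext
          (congrArg Subtype.val h :)), fun P => ?_⟩).symm
    obtain ⟨hP, hPv⟩ := P.2
    exact ⟨⟨⟨P.1, hP, Ideal.ne_bot_of_liesOver_of_ne_bot v.ne_bot P.1⟩,
      HeightOneSpectrum.ext hPv.over.symm⟩, rfl⟩
  rwa [he, one_mul, hcard, IsGalois.card_aut_eq_finrank] at hfund

theorem map_ne_bot {I : Ideal (𝓞 K)} (h : I ≠ ⊥) :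
    I.map (algebraMap (𝓞 K) (𝓞 L)) ≠ ⊥ := fun h0 =>
  h ((Ideal.map_eq_bot_iff_of_injective (FaithfulSMul.algebraMap_injective (𝓞 K) (𝓞 L))).1 h0)

/-- **An unramified prime extends to the product of the primes above it.** -/
theorem map_eq_prod {v : HeightOneSpectrum (𝓞 K)} (h : ¬ IsRam L v) :
    v.asIdeal.map (algebraMap (𝓞 K) (𝓞 L)) = ∏ Q ∈ primesOverV L v, Q.asIdeal := by
  refine ideal_eq_of_ordI (map_ne_bot v.ne_bot)
    (Finset.prod_ne_zero_iff.2 fun Q _ => Q.ne_bot) fun P => ?_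
  rw [ordI_prod P _ _ fun Q _ => Q.ne_bot, Finset.sum_congr rfl fun Q _ => ordI_prime P Q,
    Finset.sum_ite_eq]
  by_cases hP : belowP K P = v
  · subst hP
    rw [if_pos (mem_primesOverV.2 rfl)]
    have h1 := eIdx_eq_one (Q := P) h
    rwa [eIdx, Ideal.IsDedekindDomain.ramificationIdx'_eq_multiplicity (map_ne_bot (L := L) (belowP K P).ne_bot) P.isPrime] at h1
  · rw [if_neg fun hm => hP (mem_primesOverV.1 hm), ordI_eq_zero_iff]
    exact fun hd => hP (HeightOneSpectrum.ext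
      (v.isMaximal.eq_of_le (Ideal.IsPrime.ne_top (belowP K P).isPrime)
        (Ideal.map_le_iff_le_comap.1 (Ideal.le_of_dvd hd))).symm)

end FA.PrincipalIdeal
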