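import Fermat.Agent.ExistenceTheorem.HilbertClassField

/-!
# The second Hilbert class field

The Hilbert class field of a Galois extension is Galois over the base; for the Hilbert class field
of the Hilbert class field, the automorphisms fixing the first are the commutator subgroup.
-/

set_option autoImplicit false
set_option linter.unusedSectionVars false
set_option linter.style.haveILetI false

noncomputable section

universe u

open NumberField NumberField.InfinitePlace IsDedekindDomain Finset
open FA.Ext (primeIdeal)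
open FA.Chebotarev (strictFrobSet)
open scoped Pointwise nonZeroDivisors Classical

namespace FA.PrincipalIdeal

open FA.ArtinRec

section conj

variable {K F L M : Type*} [Field K] [NumberField K] [Field F] [NumberField F] [Field L]
  [NumberField L] [Field M] [NumberField M] [Algebra K F] [Algebra K M] [Algebra F L] [Algebra F M]
  [Algebra L M] [IsScalarTower F L M] [IsScalarTower K F M] [IsGalois K F] [IsGalois K M]
  [IsGalois F L] [IsGalois F M] [IsMulCommutative (L ≃ₐ[F] L)]

theorem artinAt_eq_one_iff_isPrincipal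
    (h : IsClassField L (unitModulus_ne_bot F) ∅ (toClassGroup F).ker)
    (u : HeightOneSpectrum (𝓞 F)) :
    artinAt L u = 1 ↔ Submodule.IsPrincipal u.asIdeal := by
  rw [h.artinAt_eq_one_iff u (sup_top_eq _), MonoidHom.mem_ker, toClassGroup_apply]
  exact ClassGroup.mk0_eq_one_iff _

/-- Principal primes have principal images. -/
theorem isPrincipal_under_galPrime (g : M ≃ₐ[K] M) (Q : HeightOneSpectrum (𝓞 M))
    (h : Submodule.IsPrincipal (belowP F Q).asIdeal) :
    Submodule.IsPrincipal (belowP F (galPrime g Q)).asIdeal := by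
  obtain ⟨x, hx⟩ := h
  set r := AlgEquiv.restrictNormalHom F g
  refine ⟨r • x, Ideal.ext fun y => ?_⟩
  show algebraMap (𝓞 F) (𝓞 M) y ∈ g • Q.asIdeal ↔ y ∈ Ideal.span {r • x}
  rw [Ideal.mem_pointwise_smul_iff_inv_smul_mem, ← FA.ArtinL.algebraMap_restrictNormal_smul,
    ← Ideal.mem_comap, show Q.asIdeal.comap (algebraMap (𝓞 F) (𝓞 M)) = Ideal.span {x} from hx,
    map_inv, Ideal.mem_span_singleton, Ideal.mem_span_singleton]
  refine ⟨fun ⟨c, hc⟩ => ⟨r • c, ?_⟩, fun ⟨c, hc⟩ => ⟨r⁻¹ • c, ?_⟩⟩
  · rw [← smul_mul', ← hc, smul_inv_smul]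
  · rw [hc, smul_mul', inv_smul_smul]

/-- **An automorphism trivial on the Hilbert class field has trivial conjugates on it.** -/
theorem restrict_conj_eq_one (h : IsClassField L (unitModulus_ne_bot F) ∅ (toClassGroup F).ker)
    (g : M ≃ₐ[K] M) (a a' : M ≃ₐ[F] M) (haa : ∀ x, a' (g x) = g (a x))
    (ha1 : AlgEquiv.restrictNormalHom L a = 1) : AlgEquiv.restrictNormalHom L a' = 1 := by
  have hunr : ∀ u, ¬ IsRam L u := fun u => h.unram u (sup_top_eq _)
  set C : Set (M ≃ₐ[F] M) := {b | ∃ c, b = c * a * c⁻¹}
  have hC : ∀ b ∈ C, ∀ x, x * b * x⁻¹ ∈ C := by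
    rintro _ ⟨c, rfl⟩ x
    exact ⟨x * c, by group⟩
  have hmean := FA.NaturalChebotarev.hasMean_strictFrobSet C hC
  have hne : ((Nat.card C : ℝ) / Nat.card (M ≃ₐ[F] M)) ≠ 0 := by
    haveI : Nonempty C := ⟨⟨a, 1, by group⟩⟩
    exact div_ne_zero (Nat.cast_ne_zero.2 Nat.card_pos.ne') (Nat.cast_ne_zero.2 Nat.card_pos.ne')
  obtain ⟨u, huC⟩ := (infinite_of_hasMean hne hmean).nonempty
  obtain ⟨Q₁, hQ₁⟩ := exists_belowP F M u
  obtain ⟨τ, hτ⟩ := exists_frob (K := F) Q₁
  obtain ⟨c, rfl⟩ := huC Q₁.asIdeal Q₁.isMaximal (congrArg HeightOneSpectrum.asIdeal hQ₁) τ hτ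
  set Q := galPrime c⁻¹ Q₁
  have hQ : belowP F Q = u := (belowP_galPrime _ _).trans hQ₁
  have ha : IsArithFrobAt (𝓞 F) a Q.asIdeal := by
    have h1 := hτ.conj c⁻¹
    rwa [show c⁻¹ * (c * a * c⁻¹) * c⁻¹⁻¹ = a by group] at h1
  set Q' := galPrime g Q
  have hK : belowP K (belowP F Q') = belowP K (belowP F Q) := by
    rw [belowP_belowP, belowP_belowP, belowP_galPrime]
  have hcard : Nat.card (𝓞 F ⧸ (belowP F Q').asIdeal) = Nat.card (𝓞 F ⧸ (belowP F Q).asIdeal) := by
    have h1 := congrArg Ideal.absNorm (relNorm_prime (K := K) (belowP F Q'))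
    rw [hK, ← relNorm_prime, Ideal.absNorm_relNorm, Ideal.absNorm_relNorm, Ideal.absNorm_apply,
      Ideal.absNorm_apply, Submodule.cardQuot_apply, Submodule.cardQuot_apply] at h1
    exact h1
  have ha' : IsArithFrobAt (𝓞 F) a' Q'.asIdeal := fun x => by
    obtain ⟨y, rfl⟩ : ∃ y : 𝓞 M, g • y = x := ⟨g⁻¹ • x, smul_inv_smul g x⟩
    have hy : a • y - y ^ Nat.card (𝓞 F ⧸ Q.asIdeal.under (𝓞 F)) ∈ Q.asIdeal := ha y
    show a' • (g • y) - (g • y) ^ Nat.card (𝓞 F ⧸ Q'.asIdeal.under (𝓞 F)) ∈ g • Q.asIdeal
    rw [show a' • (g • y) = g • (a • y) from RingOfIntegers.ext (haa (y : M)), ← smul_pow',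
      show Nat.card (𝓞 F ⧸ Q'.asIdeal.under (𝓞 F)) = Nat.card (𝓞 F ⧸ Q.asIdeal.under (𝓞 F)) from
        hcard, ← smul_sub]
    exact Ideal.smul_mem_pointwise_smul g _ _ hy
  rw [restrict_frob (L := L) (hunr _) (rfl : belowP F Q = belowP F Q) ha,
    artinAt_eq_one_iff_isPrincipal h] at ha1
  rw [restrict_frob (L := L) (hunr _) (rfl : belowP F Q' = belowP F Q') ha',
    artinAt_eq_one_iff_isPrincipal h]
  exact isPrincipal_under_galPrime g Q ha1

end conj

section tower

variable {K L M : Type*} [Field K] [NumberField K] [Field L] [NumberField L] [Field M]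
  [NumberField M] [Algebra K L] [Algebra L M] [Algebra K M] [IsScalarTower K L M] [IsGalois K L]
  [IsGalois L M] [IsMulCommutative (L ≃ₐ[K] L)] [IsMulCommutative (M ≃ₐ[L] M)]

/-- **The Hilbert class field of a Galois extension is Galois over the base.** -/
theorem normal_of_isHilbert (hM : IsClassField M (unitModulus_ne_bot L) ∅ (toClassGroup L).ker) :
    Normal K M := by
  haveI : Algebra.IsAlgebraic K (AlgebraicClosure M) := Algebra.IsAlgebraic.trans K M _
  haveI : IsAlgClosure K (AlgebraicClosure M) := ⟨inferInstance, inferInstance⟩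
  let N := IntermediateField.normalClosure K M (AlgebraicClosure M)
  haveI : NumberField N := NumberField.of_module_finite K N
  haveI : IsGalois K N := ⟨⟩
  letI : Algebra L N := ((algebraMap M N).comp (algebraMap L M)).toAlgebra
  haveI : IsScalarTower L M N := IsScalarTower.of_algebraMap_eq fun _ => rfl
  haveI : IsScalarTower K L N := IsScalarTower.of_algebraMap_eq fun x => by
    show _ = algebraMap M N (algebraMap L M (algebraMap K L x))
    rw [← IsScalarTower.algebraMap_apply K L M]
    exact IsScalarTower.algebraMap_apply K M N x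
  haveI : IsGalois L N := IsGalois.tower_top_of_isGalois K L N
  haveI : IsGalois M N := IsGalois.tower_top_of_isGalois L M N
  let E : IntermediateField K N := (IsScalarTower.toAlgHom K M N).fieldRange
  haveI : Normal K E := by
    refine IntermediateField.normal_iff_forall_map_le'.2 fun g => ?_
    rintro _ ⟨_, ⟨y, rfl⟩, rfl⟩
    obtain ⟨z, hz⟩ := (IsGalois.mem_range_algebraMap_iff_fixed (F := M)
      (g (algebraMap M N y))).mpr fun b => by
        let a : N ≃ₐ[L] N := b.restrictScalars L
        have h1 := restrict_conj_eq_one hM g⁻¹ a _ (conjOver_apply g⁻¹ a)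
          (FA.ArtinL.restrictNormal_restrictScalars b)
        have h2 := (conjOver g⁻¹ a).restrictNormal_commutes M y
        rw [show (conjOver g⁻¹ a).restrictNormal M y = y from DFunLike.congr_fun h1 y] at h2
        have h3 := conjOver_apply g⁻¹ a (g (algebraMap M N y))
        rw [show g⁻¹ (g (algebraMap M N y)) = algebraMap M N y from g.symm_apply_apply _,
          ← h2] at h3
        have h4 := congrArg g h3
        rw [show g (g⁻¹ (a (g (algebraMap M N y)))) = a (g (algebraMap M N y)) from
          g.apply_symm_apply _] at h4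
        exact h4.symm
    exact ⟨z, hz⟩
  let e : M ≃ₐ[K] E := AlgEquiv.ofInjectiveField (IsScalarTower.toAlgHom K M N)
  exact Normal.of_algEquiv e.symm

variable [IsGalois K M]

/-- The second Hilbert class field is unramified over the base. -/
theorem not_isRam_tower (hL : IsClassField L (unitModulus_ne_bot K) ∅ (toClassGroup K).ker)
    (hM : IsClassField M (unitModulus_ne_bot L) ∅ (toClassGroup L).ker)
    (v : HeightOneSpectrum (𝓞 K)) : ¬ IsRam M v := by
  refine not_isRam_trans (L := L) (hL.unram v (sup_top_eq _)) fun Q _ s hs hsL => ?_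
  let s' : M ≃ₐ[L] M :=
    { s with
      commutes' := fun x => by
        show s (algebraMap L M x) = algebraMap L M x
        have h1 := s.restrictNormal_commutes L x
        rw [show s.restrictNormal L x = x from DFunLike.congr_fun hsL x] at h1
        exact h1.symm }
  have hmem : s' ∈ Q.asIdeal.inertia (M ≃ₐ[L] M) := fun x => hs x
  rw [inertia_eq_bot (hM.unram _ (sup_top_eq _)) rfl, Subgroup.mem_bot] at hmem
  exact AlgEquiv.ext fun x => DFunLike.congr_fun hmem x

theorem isUnramifiedIn_tower (hL : IsClassField L (unitModulus_ne_bot K) ∅ (toClassGroup K).ker)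
    (hM : IsClassField M (unitModulus_ne_bot L) ∅ (toClassGroup L).ker)
    (w : InfinitePlace K) : w.IsUnramifiedIn M := fun z hz => by
  have h1 : (z.comap (algebraMap L M)).comap (algebraMap K L) = w := by
    rw [← hz, IsScalarTower.algebraMap_eq K L M]
    rfl
  have h2 := hL.unramInf w (Set.notMem_empty _) (z.comap (algebraMap L M)) h1
  have h3 := hM.unramInf (z.comap (algebraMap L M)) (Set.notMem_empty _) z rfl
  show mult (z.comap (algebraMap K M)) = mult z
  rw [hz, ← h1]
  exact h2.trans h3

/-- **The automorphisms fixing the Hilbert class field are the commutators.** -/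
theorem ker_restrict_eq_commutator
    (hL : IsClassField L (unitModulus_ne_bot K) ∅ (toClassGroup K).ker)
    (hM : IsClassField M (unitModulus_ne_bot L) ∅ (toClassGroup L).ker) :
    (AlgEquiv.restrictNormalHom L : (M ≃ₐ[K] M) →* (L ≃ₐ[K] L)).ker = commutator (M ≃ₐ[K] M) := by
  set R : (M ≃ₐ[K] M) →* (L ≃ₐ[K] L) := AlgEquiv.restrictNormalHom L
  refine le_antisymm ?_ ?_
  · let E : IntermediateField K M := IntermediateField.fixedField (commutator (M ≃ₐ[K] M))
    haveI : IsGalois K E := inferInstance
    have hker : (AlgEquiv.restrictNormalHom E : (M ≃ₐ[K] M) →* (E ≃ₐ[K] E)).ker =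
        commutator (M ≃ₐ[K] M) :=
      (IntermediateField.restrictNormalHom_ker E).trans
        (IntermediateField.fixingSubgroup_fixedField _)
    have hsurj := AlgEquiv.restrictNormalHom_surjective (F := K) (K₁ := E) M
    haveI : IsMulCommutative (E ≃ₐ[K] E) := ⟨⟨fun a b => by
      obtain ⟨a, rfl⟩ := hsurj a
      obtain ⟨b, rfl⟩ := hsurj b
      rw [← commutatorElement_eq_one_iff_mul_comm, ← map_commutatorElement, ← MonoidHom.mem_ker,
        hker]
      exact Subgroup.commutator_mem_commutator (Subgroup.mem_top a) (Subgroup.mem_top b)⟩⟩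
    haveI : IsUnramifiedAtInfinitePlaces K E := ⟨fun z =>
      isUnramifiedIn_of_algHom E.val (isUnramifiedIn_tower hL hM _) z rfl⟩
    obtain ⟨f⟩ := exists_algHom_hilbertClassField K hL (E := E) fun v =>
      isRam_of_algHom E.val (not_isRam_tower hL hM v)
    intro g hg
    rw [← IntermediateField.fixingSubgroup_fixedField (commutator (M ≃ₐ[K] M)),
      IntermediateField.mem_fixingSubgroup_iff]
    intro x hx
    have hrange : ((IsScalarTower.toAlgHom K L M).comp f).fieldRange = E :=
      AlgHom.fieldRange_of_normal _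
    obtain ⟨y, rfl⟩ : x ∈ ((IsScalarTower.toAlgHom K L M).comp f).fieldRange := by
      rw [hrange]; exact hx
    show g (algebraMap L M (f y)) = algebraMap L M (f y)
    rw [← g.restrictNormal_commutes, show g.restrictNormal L (f y) = f y from
      DFunLike.congr_fun hg (f y)]
  · rw [commutator_def, Subgroup.commutator_le]
    intro a _ b _
    rw [MonoidHom.mem_ker, map_commutatorElement, commutatorElement_eq_one_iff_mul_comm,
      mul_comm']

end tower

end FA.PrincipalIdeal
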