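import Fermat.Agent.PrincipalIdeal.Transfer
import Fermat.Agent.PrincipalIdeal.Residue
import Fermat.Agent.PrincipalIdeal.Tower

/-!
# The principal ideal theorem

The Artin symbol of the extension of a prime to the Hilbert class field is the transfer of its
Frobenius element, hence trivial: every ideal becomes principal.
-/

set_option autoImplicit false
set_option linter.unusedSectionVars false
set_option linter.style.haveILetI false

noncomputable section

universe u

open NumberField IsDedekindDomain Finset MulAction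
open FA.Hecke (coprimeIdeals)
open FA.Ext (primeIdeal)
open scoped Pointwise nonZeroDivisors Classical

namespace FA.PrincipalIdeal

open FA.ArtinRec

section transfer

variable {K L M : Type*} [Field K] [NumberField K] [Field L] [NumberField L] [Field M]
  [NumberField M] [Algebra K L] [Algebra L M] [Algebra K M] [IsScalarTower K L M] [IsGalois K L]
  [IsGalois L M] [IsGalois K M] [IsMulCommutative (L ≃ₐ[K] L)]

/-- An automorphism fixing `L`, over `L`. -/
def toOver :
    (AlgEquiv.restrictNormalHom L : (M ≃ₐ[K] M) →* (L ≃ₐ[K] L)).ker →* (M ≃ₐ[L] M) where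
  toFun s :=
    { (s.1 : M ≃ₐ[K] M) with
      commutes' := fun x => by
        show s.1 (algebraMap L M x) = algebraMap L M x
        have h1 := s.1.restrictNormal_commutes L x
        rw [show s.1.restrictNormal L x = x from DFunLike.congr_fun s.2 x] at h1
        exact h1.symm }
  map_one' := AlgEquiv.ext fun _ => rfl
  map_mul' _ _ := AlgEquiv.ext fun _ => rfl

/-- The prime of `L` of a coset. -/
theorem belowP_galPrime_eq (Q : HeightOneSpectrum (𝓞 M)) (a b : M ≃ₐ[K] M)
    (h : a⁻¹ * b ∈ (AlgEquiv.restrictNormalHom L : (M ≃ₐ[K] M) →* (L ≃ₐ[K] L)).ker) :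
    belowP L (galPrime a⁻¹ Q) = belowP L (galPrime b⁻¹ Q) := by
  have hh : galPrime a⁻¹ Q = galPrime (a⁻¹ * b) (galPrime b⁻¹ Q) := by
    rw [← galPrime_mul, mul_assoc, mul_inv_cancel, mul_one]
  rw [hh]
  refine HeightOneSpectrum.ext (Ideal.ext fun y => ?_)
  show algebraMap (𝓞 L) (𝓞 M) y ∈ (a⁻¹ * b) • (galPrime b⁻¹ Q).asIdeal ↔ _
  rw [Ideal.mem_pointwise_smul_iff_inv_smul_mem,
    show (a⁻¹ * b)⁻¹ • algebraMap (𝓞 L) (𝓞 M) y = algebraMap (𝓞 L) (𝓞 M) y from
      RingOfIntegers.ext ((toOver (⟨_, inv_mem h⟩ : (AlgEquiv.restrictNormalHom L :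
        (M ≃ₐ[K] M) →* (L ≃ₐ[K] L)).ker)).commutes (y : L))]
  rfl

/-- **The product of the symbols of the primes above is the transfer of a Frobenius element.** -/
theorem prod_artinAt_eq_one {A : Type*} [CommGroup A] (j : (M ≃ₐ[L] M) →* A)
    [IsMulCommutative (M ≃ₐ[L] M)]
    (hker : (AlgEquiv.restrictNormalHom L : (M ≃ₐ[K] M) →* (L ≃ₐ[K] L)).ker =
      commutator (M ≃ₐ[K] M))
    (hL : ∀ v : HeightOneSpectrum (𝓞 K), ¬ IsRam L v) (hM : ∀ u : HeightOneSpectrum (𝓞 L), ¬ IsRam M u)
    (v : HeightOneSpectrum (𝓞 K)) :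
    ∏ u ∈ primesOverV L v, j (artinAt M u) = 1 := by
  set G := M ≃ₐ[K] M
  set R : G →* (L ≃ₐ[K] L) := AlgEquiv.restrictNormalHom L
  let φ : commutator G →* A := (j.comp toOver).comp (Subgroup.inclusion hker.ge)
  obtain ⟨Q₀, hQ₀⟩ := exists_belowP K M v
  obtain ⟨τ, hτ⟩ := exists_frob (K := K) Q₀
  set f := fDeg L v
  have hR : R τ = artinAt L v := restrict_frob (hL v) hQ₀ hτ
  have hord : orderOf (R τ) = f := hR ▸ orderOf_artinAt (hL v)
  have hmem : ∀ g : G, g ∈ commutator G ↔ R g = 1 := fun g => by rw [← hker, MonoidHom.mem_ker]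
  have hfix : ∀ (x : G ⧸ commutator G) (k : ℕ), τ ^ k • x = x ↔ f ∣ k := fun x k => by
    induction x using QuotientGroup.induction_on with
    | H c =>
      rw [MulAction.Quotient.smul_mk, QuotientGroup.eq, hmem, ← hord, orderOf_dvd_iff_pow_eq_one,
        map_mul, map_inv, smul_eq_mul, map_mul, map_pow, mul_inv_rev,
        mul_comm' (R c)⁻¹, mul_assoc, inv_mul_cancel, mul_one, inv_eq_one]
  have hper : ∀ x : G ⧸ commutator G, Function.minimalPeriod (τ • ·) x = f := fun x => by
    refine Nat.dvd_antisymm (Function.IsPeriodicPt.minimalPeriod_dvd ?_) ?_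
    · show (τ • ·)^[f] x = x
      rw [smul_iterate_apply]
      exact (hfix x f).2 dvd_rfl
    · refine (hfix x _).1 ?_
      have h1 := Function.iterate_minimalPeriod (f := (τ • ·)) (x := x)
      rwa [smul_iterate_apply] at h1
  haveI := Fintype.ofFinite (Quotient (orbitRel (Subgroup.zpowers τ) (G ⧸ commutator G)))
  have htr := MonoidHom.transfer_eq_prod_quotient_orbitRel_zpowers_quot φ τ
  rw [transfer_commutator_eq_one] at htr
  set Ω := Quotient (orbitRel (Subgroup.zpowers τ) (G ⧸ commutator G))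
  let P : Ω → {u : HeightOneSpectrum (𝓞 L) // belowP K u = v} := fun q =>
    ⟨belowP L (galPrime q.out.out⁻¹ Q₀), by rw [belowP_belowP, belowP_galPrime, hQ₀]⟩
  -- the orbits are the primes above
  have hτQ : galPrime τ Q₀ = Q₀ := HeightOneSpectrum.ext (by
    haveI := Q₀.isMaximal
    haveI : Finite (𝓞 M ⧸ Q₀.asIdeal) := Ideal.finiteQuotientOfFreeOfNeBot _ Q₀.ne_bot
    exact hτ.mem_stabilizer)
  have hsurj : Function.Surjective P := fun u => by
    obtain ⟨Q, hQ⟩ := exists_belowP L M u.1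
    obtain ⟨g, hg⟩ := Algebra.IsInvariant.exists_smul_of_under_eq (𝓞 K) (𝓞 M) G
      Q₀.asIdeal Q.asIdeal (congrArg HeightOneSpectrum.asIdeal
        ((hQ₀.trans u.2.symm).trans ((congrArg (belowP K) hQ.symm).trans (belowP_belowP Q))))
    set q : Ω := Quotient.mk'' (QuotientGroup.mk g⁻¹ : G ⧸ commutator G)
    refine ⟨q, Subtype.ext ?_⟩
    obtain ⟨⟨t, k, rfl⟩, ht⟩ : q.out ∈ MulAction.orbit (Subgroup.zpowers τ)
        (QuotientGroup.mk g⁻¹ : G ⧸ commutator G) :=
      MulAction.orbitRel_apply.1 (Quotient.exact (Quotient.out_eq q))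
    have ht' : (QuotientGroup.mk (τ ^ k * g⁻¹) : G ⧸ commutator G) = QuotientGroup.mk q.out.out :=
      ht.trans (QuotientGroup.out_eq' q.out).symm
    have h1 := belowP_galPrime_eq (L := L) Q₀ q.out.out (τ ^ k * g⁻¹)
      ((hmem _).1 (QuotientGroup.eq.1 ht'.symm))
    show belowP L (galPrime q.out.out⁻¹ Q₀) = u.1
    have hk : galPrime (τ ^ k)⁻¹ Q₀ = Q₀ := HeightOneSpectrum.ext (by
      have h2 : τ ^ k ∈ MulAction.stabilizer G Q₀.asIdeal :=
        zpow_mem (congrArg HeightOneSpectrum.asIdeal hτQ :) k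
      exact inv_mem h2)
    rw [h1, mul_inv_rev, inv_inv, galPrime_mul, hk, ← hQ]
    exact congrArg (belowP L) (HeightOneSpectrum.ext hg.symm)
  have hcard : Nat.card Ω * f = Module.finrank K L := by
    have h1 : (commutator G).index = Module.finrank K L := by
      rw [← hker, Subgroup.index_ker, MonoidHom.range_eq_top.2
        (AlgEquiv.restrictNormalHom_surjective M), Nat.card_congr Subgroup.topEquiv.toEquiv,
        IsGalois.card_aut_eq_finrank]
    rw [← h1, Subgroup.index, Nat.card_congr (Subgroup.quotientEquivSigmaZMod (commutator G) τ),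
      Nat.card_sigma]
    simp only [Nat.card_zmod, hper, Finset.sum_const, Finset.card_univ, smul_eq_mul]
    rw [Nat.card_eq_fintype_card]
  haveI : Finite {u : HeightOneSpectrum (𝓞 L) // belowP K u = v} :=
    (finite_belowP (L := L) v).to_subtype
  have hbij : Function.Bijective P := (Nat.bijective_iff_surjective_and_card P).2 ⟨hsurj,
    Nat.eq_of_mul_eq_mul_right (Nat.pos_of_ne_zero (fDeg_ne_zero v))
      (hcard.trans (card_over_mul_fDeg (hL v)).symm)⟩
  let iP : Fintype {u : HeightOneSpectrum (𝓞 L) // belowP K u = v} := Fintype.ofFinite _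
  rw [Finset.prod_subtype (F := iP) (primesOverV L v) (p := fun u => belowP K u = v)
    fun u => mem_primesOverV, htr]
  symm
  refine Finset.prod_bijective P hbij (fun q => ⟨fun _ => @Finset.mem_univ _ (_) _, fun _ => @Finset.mem_univ _ (_) _⟩) fun q _ => ?_
  -- each factor is a symbol
  show j _ = j _
  refine congrArg j (artinAt_eq (hM _) (Q := galPrime q.out.out⁻¹ Q₀) rfl fun x => ?_)
  set c := q.out.out
  set u := belowP L (galPrime c⁻¹ Q₀)
  have hcardu : Nat.card (𝓞 L ⧸ u.asIdeal) = Nat.card (𝓞 K ⧸ v.asIdeal) ^ f := by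
    have hu : belowP K u = v := (P q).2
    rw [card_residue_eq_pow (K := K) u, hu]
  have h1 := frob_pow_sub_mem hτ f (c • x)
  rw [show (belowP K Q₀) = v from hQ₀] at h1
  have h2 := Ideal.smul_mem_pointwise_smul c⁻¹ _ _ h1
  rw [smul_sub, smul_pow', inv_smul_smul, ← hcardu, ← hper q.out] at h2
  show (c⁻¹ * τ ^ Function.minimalPeriod (τ • ·) q.out * c) • x -
    x ^ Nat.card (𝓞 L ⧸ u.asIdeal) ∈ c⁻¹ • Q₀.asIdeal
  rwa [mul_smul, mul_smul]

end transfer

/-- The extension of ideals. -/
def mapIdeal (K L : Type*) [Field K] [NumberField K] [Field L] [NumberField L] [Algebra K L] :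
    (Ideal (𝓞 K))⁰ →* (Ideal (𝓞 L))⁰ where
  toFun I := ⟨I.1.map (algebraMap (𝓞 K) (𝓞 L)), mem_nonZeroDivisors_iff_ne_zero.mpr fun h =>
    nonZeroDivisors.coe_ne_zero I ((Ideal.map_eq_bot_iff_of_injective
      (FaithfulSMul.algebraMap_injective (𝓞 K) (𝓞 L))).1 h)⟩
  map_one' := Subtype.ext (by
    show (1 : Ideal (𝓞 K)).map _ = (1 : Ideal (𝓞 L))
    rw [Ideal.one_eq_top, Ideal.one_eq_top, Ideal.map_top])
  map_mul' I J := Subtype.ext (Ideal.map_mul _ _ _)

/-- **The principal ideal theorem for a Hilbert class field.** -/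
theorem isPrincipal_map {K L : Type u} [Field K] [NumberField K] [Field L] [NumberField L]
    [Algebra K L] [IsGalois K L] [IsMulCommutative (L ≃ₐ[K] L)]
    (hL : IsClassField L (unitModulus_ne_bot K) ∅ (toClassGroup K).ker) (I : Ideal (𝓞 K)) :
    Submodule.IsPrincipal (I.map (algebraMap (𝓞 K) (𝓞 L))) := by
  obtain ⟨M, _, _, _, _, _, -, -, ⟨e, he⟩, hM⟩ := exists_hilbertClassField L
  letI : Algebra K M := ((algebraMap L M).comp (algebraMap K L)).toAlgebra
  haveI : IsScalarTower K L M := IsScalarTower.of_algebraMap_eq fun _ => rfl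
  haveI : FiniteDimensional K M := FiniteDimensional.trans K L M
  haveI : Normal K M := normal_of_isHilbert (K := K) hM
  haveI : IsGalois K M := ⟨⟩
  have hLu : ∀ v : HeightOneSpectrum (𝓞 K), ¬ IsRam L v := fun v => hL.unram v (sup_top_eq _)
  have hker := ker_restrict_eq_commutator hL hM
  have hprime : ∀ v : HeightOneSpectrum (𝓞 K),
      ClassGroup.mk0 (mapIdeal K L (primeIdeal v)) = 1 := fun v => by
    have h1 := prod_artinAt_eq_one e.symm.toMonoidHom hker hLu
      (fun u => hM.unram u (sup_top_eq _)) v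
    simp only [MulEquiv.coe_toMonoidHom, ← he, MulEquiv.symm_apply_apply, ← map_prod] at h1
    rw [← h1]
    refine congrArg ClassGroup.mk0 (Subtype.ext ?_)
    rw [Submonoid.coe_finsetProd]
    exact map_eq_prod (hLu v)
  rcases eq_or_ne I ⊥ with rfl | hI
  · rw [Ideal.map_bot]
    infer_instance
  let J : coprimeIdeals (⊤ : Ideal (𝓞 K)) :=
    ⟨⟨I, mem_nonZeroDivisors_iff_ne_zero.mpr hI⟩, sup_top_eq _⟩
  have h2 : (ClassGroup.mk0.comp (mapIdeal K L)).comp (coprimeIdeals ⊤).subtype = 1 :=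
    hom_ext_primes fun v _ => hprime v
  exact (ClassGroup.mk0_eq_one_iff (mapIdeal K L J.1).2).1 (DFunLike.congr_fun h2 J)

end FA.PrincipalIdeal
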