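import Mathlib

/-!
# The transfer to the commutator subgroup is trivial

For a finite group `G` with abelianization `Q` and a homomorphism from the commutator subgroup to an
abelian group: the cocycle of a system of representatives is a derivation into the functions on `Q`,
and a matrix of relations over `ℤ[Q]` whose determinant augments to `|Q|` annihilates it, so that
determinant is the norm element and the transfer vanishes.
-/

set_option autoImplicit false
set_option linter.unusedSectionVars false
set_option linter.style.haveILetI false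

noncomputable section

open Finset
open scoped Classical commutatorElement

namespace FA.PrincipalIdeal

section norm

variable (Q : Type*) [CommGroup Q] [Fintype Q]

/-- The augmentation. -/
def augmentation : MonoidAlgebra ℤ Q →ₐ[ℤ] ℤ := MonoidAlgebra.lift ℤ ℤ Q 1

theorem augmentation_of (q : Q) : augmentation Q (MonoidAlgebra.of ℤ Q q) = 1 := by
  simp [augmentation]

/-- The norm element. -/
def normElt : MonoidAlgebra ℤ Q := ∑ q, MonoidAlgebra.of ℤ Q q

theorem normElt_mul_of (q : Q) : normElt Q * MonoidAlgebra.of ℤ Q q = normElt Q := by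
  rw [normElt, Finset.sum_mul]
  simp_rw [← map_mul]
  exact Fintype.sum_equiv (Equiv.mulRight q) _ _ fun _ => rfl

theorem normElt_mul (r : MonoidAlgebra ℤ Q) : normElt Q * r = augmentation Q r • normElt Q := by
  induction r using MonoidAlgebra.induction_on with
  | of q => rw [normElt_mul_of, augmentation_of, one_smul]
  | add x y hx hy => rw [mul_add, hx, hy, map_add, add_smul]
  | smul c x hx => rw [mul_smul_comm, hx, map_smul, smul_smul, smul_eq_mul]

/-- An element fixed by translations with augmentation `|Q|` is the norm element. -/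
theorem eq_normElt {D : MonoidAlgebra ℤ Q} (h : ∀ q, D * MonoidAlgebra.of ℤ Q q = D)
    (hD : augmentation Q D = Fintype.card Q) : D = normElt Q := by
  have h1 : normElt Q * D = (Fintype.card Q : ℤ) • D := by
    rw [mul_comm, normElt, Finset.mul_sum]
    rw [Finset.sum_congr rfl fun q _ => h q, Finset.sum_const, Finset.card_univ, natCast_zsmul]
  rw [normElt_mul, hD] at h1
  refine MonoidAlgebra.coeff_inj.1 (Finsupp.ext fun q => ?_)
  have h2 := congrArg (fun x : MonoidAlgebra ℤ Q => x.coeff q) h1
  simp only [MonoidAlgebra.coeff_smul_apply, smul_eq_mul] at h2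
  exact (mul_left_cancel₀ (Int.natCast_ne_zero.2 Fintype.card_ne_zero) h2).symm

end norm

section derivation

variable {G Q X : Type*} [Group G] [Finite G] [CommGroup Q] [Fintype Q] (π : G →* Q)
  [AddCommGroup X] [Module (MonoidAlgebra ℤ Q) X] (d : G → X)
  (hd : ∀ g h, d (g * h) = d g + MonoidAlgebra.of ℤ Q (π g) • d h)

include hd

theorem deriv_one : d 1 = 0 := by
  have h := hd 1 1
  rw [one_mul, map_one, map_one, one_smul] at h
  exact left_eq_add.1 h

theorem deriv_inv (g : G) : d g⁻¹ = -(MonoidAlgebra.of ℤ Q (π g⁻¹) • d g) := by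
  have h := hd g⁻¹ g
  rw [inv_mul_cancel, deriv_one π d hd] at h
  exact eq_neg_of_add_eq_zero_left h.symm

theorem deriv_pow (g : G) (n : ℕ) :
    d (g ^ n) = (∑ j ∈ range n, MonoidAlgebra.of ℤ Q (π g) ^ j) • d g := by
  induction n with
  | zero => rw [pow_zero, deriv_one π d hd, Finset.sum_range_zero, zero_smul]
  | succ n ih => rw [pow_succ, hd, ih, Finset.sum_range_succ, add_smul, map_pow, map_pow]

/-- **The norm element kills a derivation with values in a module over the abelianization.** -/
theorem normElt_smul_deriv (hπ : Function.Surjective π) (hker : π.ker = commutator G)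
    (hfaith : ∀ D : MonoidAlgebra ℤ Q, (∀ g, D • d g = 0) →
      ∀ g, D * MonoidAlgebra.of ℤ Q (π g) = D) (g : G) :
    normElt Q • d g = 0 := by
  obtain ⟨ι, _, n, hn, ⟨e⟩⟩ := CommGroup.equiv_prod_multiplicative_zmod_of_finite Q
  haveI : ∀ i, NeZero (n i) := fun i => ⟨(zero_lt_one.trans (hn i)).ne'⟩
  haveI := Fintype.ofFinite G
  choose t ht using fun i => hπ (e.symm (Pi.mulSingle i (Multiplicative.ofAdd 1)))
  let x : ι ⊕ π.ker → X := Sum.elim (fun i => d (t i)) fun a => d a
  -- every value is a combination
  let Sp : Submodule (MonoidAlgebra ℤ Q) X := Submodule.span _ (Set.range x)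
  let Gsp : Subgroup G :=
    { carrier := {g | d g ∈ Sp}
      one_mem' := by rw [Set.mem_ofPred_eq, deriv_one π d hd]; exact zero_mem _
      mul_mem' := fun {a b} ha hb => by
        rw [Set.mem_ofPred_eq, hd]
        exact add_mem ha (Sp.smul_mem _ hb)
      inv_mem' := fun {a} ha => by
        rw [Set.mem_ofPred_eq, deriv_inv π d hd]
        exact neg_mem (Sp.smul_mem _ ha) }
  have hspan : ∀ g, d g ∈ Sp := fun g => by
    suffices Gsp = ⊤ from this.ge (Subgroup.mem_top g)
    have hkle : π.ker ≤ Gsp := fun a ha => Submodule.subset_span ⟨Sum.inr ⟨a, ha⟩, rfl⟩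
    have hsingle : ∀ i (y : Multiplicative (ZMod (n i))), e.symm (Pi.mulSingle i y) ∈ Gsp.map π := by
      intro i y
      obtain ⟨k, hk⟩ := ZMod.natCast_zmod_surjective (n := n i) (Multiplicative.toAdd y)
      refine ⟨t i ^ k, pow_mem (show t i ∈ Gsp from Submodule.subset_span ⟨Sum.inl i, rfl⟩) k, ?_⟩
      rw [map_pow, ht, ← map_pow, ← Pi.mulSingle_pow, ← ofAdd_nsmul, nsmul_one, hk, ofAdd_toAdd]
    have hmap : Gsp.map π = ⊤ := by
      refine eq_top_iff.2 fun q _ => ?_
      rw [← e.symm_apply_apply q, ← Finset.univ_prod_mulSingle (e q), map_prod]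
      exact prod_mem fun i _ => hsingle i _
    rw [← Subgroup.comap_map_eq_self hkle, hmap, Subgroup.comap_top]
  -- on commutators the combination augments to zero
  let Small : AddSubgroup X :=
    { carrier := {y | ∃ c : ι ⊕ π.ker → MonoidAlgebra ℤ Q,
        (∀ j, augmentation Q (c j) = 0) ∧ y = ∑ j, c j • x j}
      zero_mem' := ⟨0, fun _ => map_zero _, by simp⟩
      add_mem' := by
        rintro _ _ ⟨c, hc, rfl⟩ ⟨c', hc', rfl⟩
        exact ⟨c + c', fun j => by rw [Pi.add_apply, map_add, hc, hc', add_zero],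
          by simp [add_smul, Finset.sum_add_distrib]⟩
      neg_mem' := by
        rintro _ ⟨c, hc, rfl⟩
        exact ⟨-c, fun j => by rw [Pi.neg_apply, map_neg, hc, neg_zero],
          by simp [neg_smul, Finset.sum_neg_distrib]⟩ }
  have hsmall : ∀ (r : MonoidAlgebra ℤ Q) (y : X), augmentation Q r = 0 → y ∈ Sp →
      r • y ∈ Small := fun r y hr hy => by
    obtain ⟨c, rfl⟩ := (Submodule.mem_span_range_iff_exists_fun _).1 hy
    exact ⟨fun j => r * c j, fun j => by rw [map_mul, hr, zero_mul],
      by simp [Finset.smul_sum, mul_smul]⟩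
  let Gsm : Subgroup G :=
    { carrier := {g | π g = 1 ∧ d g ∈ Small}
      one_mem' := ⟨map_one π, by rw [deriv_one π d hd]; exact zero_mem _⟩
      mul_mem' := fun {a b} ha hb => ⟨by rw [map_mul, ha.1, hb.1, one_mul],
        by rw [hd, ha.1, map_one, one_smul]; exact add_mem ha.2 hb.2⟩
      inv_mem' := fun {a} ha => ⟨by rw [map_inv, ha.1, inv_one],
        by rw [deriv_inv π d hd, map_inv π, ha.1, inv_one, map_one, one_smul]
           exact neg_mem ha.2⟩ }
  have hcomm : commutator G ≤ Gsm := by
    rw [commutator_def, Subgroup.commutator_le]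
    intro a _ b _
    refine ⟨?_, ?_⟩
    · rw [map_commutatorElement, commutatorElement_eq_one_iff_mul_comm, mul_comm]
    · have h1 : d ⁅a, b⁆ = (1 - MonoidAlgebra.of ℤ Q (π b)) • d a +
          (MonoidAlgebra.of ℤ Q (π a) - 1) • d b := by
        have e1 : π (a * b * a⁻¹) = π b := by
          rw [map_mul, map_mul, map_inv, mul_comm (π a), mul_inv_cancel_right]
        have e2 : π (a * b * a⁻¹ * b⁻¹) = 1 := by rw [map_mul, e1, map_inv, mul_inv_cancel]
        rw [commutatorElement_def, hd, hd, hd, deriv_inv π d hd, deriv_inv π d hd, smul_neg,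
          smul_neg, ← mul_smul, ← mul_smul, ← map_mul, ← map_mul π, ← map_mul, ← map_mul π, e2, e1,
          map_one, one_smul, sub_smul, sub_smul, one_smul, one_smul]
        abel
      rw [h1]
      exact add_mem (hsmall _ _ (by rw [map_sub, map_one, augmentation_of, sub_self]) (hspan a))
        (hsmall _ _ (by rw [map_sub, map_one, augmentation_of, sub_self]) (hspan b))
  have hdker : ∀ a : π.ker, d a ∈ Small := fun a => (hcomm (hker ▸ a.2)).2
  -- the relations
  have hrel : ∀ k : ι ⊕ π.ker, ∃ row : ι ⊕ π.ker → MonoidAlgebra ℤ Q,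
      (∀ j, augmentation Q (row j) = if j = k then Sum.elim (fun i => (n i : ℤ)) 1 k else 0) ∧
        ∑ j, row j • x j = 0 := by
    rintro (i | a)
    · have hmem : t i ^ n i ∈ π.ker := by
        rw [MonoidHom.mem_ker, map_pow, ht, ← map_pow, ← Pi.mulSingle_pow, ← ofAdd_nsmul,
          nsmul_one, ZMod.natCast_self, ofAdd_zero, Pi.mulSingle_one, map_one]
      obtain ⟨c, hc, hc'⟩ := hdker ⟨_, hmem⟩
      refine ⟨Pi.single (Sum.inl i) (∑ j ∈ range (n i), MonoidAlgebra.of ℤ Q (π (t i)) ^ j) - c,
        fun j => ?_, ?_⟩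
      · rw [Pi.sub_apply, map_sub, hc, sub_zero]
        by_cases hj : j = Sum.inl i
        · subst hj
          simp [map_sum, augmentation_of, -MonoidAlgebra.of_apply]
        · rw [Pi.single_eq_of_ne hj, map_zero, if_neg hj]
      · simp only [Pi.sub_apply, sub_smul, Finset.sum_sub_distrib]
        rw [← hc', Finset.sum_eq_single (Sum.inl i) (fun j _ hj => by
            rw [Pi.single_eq_of_ne hj, zero_smul]) (fun h => absurd (Finset.mem_univ _) h),
          Pi.single_eq_same]
        show _ • d (t i) - d (t i ^ n i) = 0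
        rw [deriv_pow π d hd, sub_self]
    · obtain ⟨c, hc, hc'⟩ := hdker a
      refine ⟨Pi.single (Sum.inr a) 1 - c, fun j => ?_, ?_⟩
      · rw [Pi.sub_apply, map_sub, hc, sub_zero]
        by_cases hj : j = Sum.inr a
        · subst hj
          simp
        · rw [Pi.single_eq_of_ne hj, map_zero, if_neg hj]
      · simp only [Pi.sub_apply, sub_smul, Finset.sum_sub_distrib]
        rw [← hc', Finset.sum_eq_single (Sum.inr a) (fun j _ hj => by
            rw [Pi.single_eq_of_ne hj, zero_smul]) (fun h => absurd (Finset.mem_univ _) h),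
          Pi.single_eq_same, one_smul]
        exact sub_self _
  choose row haug hrow using hrel
  let M : Matrix (ι ⊕ π.ker) (ι ⊕ π.ker) (MonoidAlgebra ℤ Q) := Matrix.of row
  have hdet : ∀ j, M.det • x j = 0 := fun j => by
    have h := Matrix.adjugate_mul M
    have h1 : M.det • x j = ∑ l, (M.adjugate * M) j l • x l := by
      rw [h, Finset.sum_eq_single j (fun l _ hl => by
          rw [Matrix.smul_apply, Matrix.one_apply_ne hl.symm, smul_zero, zero_smul])
        (fun h' => absurd (Finset.mem_univ _) h'), Matrix.smul_apply, Matrix.one_apply_eq,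
        smul_eq_mul, mul_one]
    simp only [Matrix.mul_apply, Finset.sum_smul, mul_smul] at h1
    rw [Finset.sum_comm] at h1
    rw [h1]
    refine Finset.sum_eq_zero fun k _ => ?_
    rw [← Finset.smul_sum, show ∑ l, M k l • x l = 0 from hrow k, smul_zero]
  have hall : ∀ g, M.det • d g = 0 := fun g => by
    obtain ⟨c, hc⟩ := (Submodule.mem_span_range_iff_exists_fun _).1 (hspan g)
    rw [← hc, Finset.smul_sum]
    exact Finset.sum_eq_zero fun j _ => by rw [smul_comm, hdet, smul_zero]
  have haugdet : augmentation Q M.det = Fintype.card Q := by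
    rw [show augmentation Q M.det = (augmentation Q).toRingHom M.det from rfl, RingHom.map_det,
      show (augmentation Q).toRingHom.mapMatrix M =
        Matrix.diagonal (Sum.elim (fun i => (n i : ℤ)) 1) from ?_, Matrix.det_diagonal,
      Fintype.prod_sum_type, Fintype.card_congr e.toEquiv, Fintype.card_pi]
    · simp
    · refine Matrix.ext fun k j => ?_
      rw [RingHom.mapMatrix_apply, Matrix.map_apply, Matrix.diagonal_apply]
      refine (haug k j).trans ?_
      by_cases h : j = k
      · rw [if_pos h, if_pos h.symm]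
      · rw [if_neg h, if_neg (Ne.symm h)]
  rw [← eq_normElt Q (fun q => ?_) haugdet, hall]
  obtain ⟨g', rfl⟩ := hπ q
  exact hfaith _ hall g'

end derivation

/-- **The transfer to the commutator subgroup is trivial.** -/
theorem transfer_commutator_eq_one {G : Type*} [Group G] [Finite G] {A : Type*} [CommGroup A]
    (φ : commutator G →* A) (g : G) : MonoidHom.transfer φ g = 1 := by
  let Q := Abelianization G
  haveI : Fintype Q := Fintype.ofFinite _
  let π : G →* Q := Abelianization.of
  have hker : π.ker = commutator G := Abelianization.ker_of G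
  let T : (commutator G).LeftTransversal := default
  let s : Q → G := fun q => ((T.2.leftQuotientEquiv q⁻¹ : G))⁻¹
  have hs : ∀ q, π (s q) = q := fun q => by
    show π ((T.2.leftQuotientEquiv q⁻¹ : G))⁻¹ = q
    rw [map_inv, inv_eq_iff_eq_inv]
    exact T.2.leftQuotientEquiv.symm_apply_apply q⁻¹
  have hmem : ∀ g q, s q * g * (s (q * π g))⁻¹ ∈ commutator G := fun g q => by
    rw [← hker, MonoidHom.mem_ker, map_mul, map_mul, map_inv]
    show π (s q) * π g * (π (s (q * π g)))⁻¹ = 1
    rw [hs, hs, mul_inv_cancel]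
  let a : G → Q → Additive A := fun g q => Additive.ofMul (φ ⟨_, hmem g q⟩)
  let act : Q →* Module.End ℤ (Q → Additive A) :=
    { toFun := fun y => LinearMap.funLeft ℤ (Additive A) fun q => q * y
      map_one' := LinearMap.ext fun f => funext fun q => congrArg f (mul_one q)
      map_mul' := fun y z => LinearMap.ext fun f => funext fun q => congrArg f (mul_assoc q y z).symm }
  let ρ : MonoidAlgebra ℤ Q →+* Module.End ℤ (Q → Additive A) :=
    (MonoidAlgebra.lift ℤ (Module.End ℤ (Q → Additive A)) Q act).toRingHom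
  letI : Module (MonoidAlgebra ℤ Q) (Q → Additive A) := Module.compHom _ ρ
  have hact : ∀ (y : Q) (f : Q → Additive A) (q : Q),
      (MonoidAlgebra.of ℤ Q y • f) q = f (q * y) := fun y f q => by
    show ρ (MonoidAlgebra.of ℤ Q y) f q = f (q * y)
    simp [ρ, act, LinearMap.funLeft]
  let d : G → (Q → Additive A) × MonoidAlgebra ℤ Q :=
    fun g => (a g, MonoidAlgebra.of ℤ Q (π g) - 1)
  have hd : ∀ g h, d (g * h) = d g + MonoidAlgebra.of ℤ Q (π g) • d h := fun g h => by
    refine Prod.ext (funext fun q => ?_) ?_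
    · show a (g * h) q = a g q + (MonoidAlgebra.of ℤ Q (π g) • a h) q
      rw [hact]
      show Additive.ofMul _ = Additive.ofMul _ + Additive.ofMul _
      rw [← ofMul_mul, ← map_mul]
      refine congrArg (fun z => Additive.ofMul (φ z)) (Subtype.ext ?_)
      show s q * (g * h) * (s (q * π (g * h)))⁻¹ =
        s q * g * (s (q * π g))⁻¹ * (s (q * π g) * h * (s (q * π g * π h))⁻¹)
      rw [map_mul, ← mul_assoc q]
      group
    · show MonoidAlgebra.of ℤ Q (π (g * h)) - 1 = MonoidAlgebra.of ℤ Q (π g) - 1 +
        MonoidAlgebra.of ℤ Q (π g) * (MonoidAlgebra.of ℤ Q (π h) - 1)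
      rw [map_mul π, map_mul (MonoidAlgebra.of ℤ Q)]
      ring
  have h0 := normElt_smul_deriv π d hd QuotientGroup.mk_surjective hker (fun D hD g' => by
    have h := congrArg Prod.snd (hD g')
    change D * (MonoidAlgebra.of ℤ Q (π g') - 1) = 0 at h
    rwa [mul_sub, mul_one, sub_eq_zero] at h) g
  have h1 : ((normElt Q • a g : Q → Additive A)) 1 = 0 := congrFun (congrArg Prod.fst h0) 1
  rw [normElt, Finset.sum_smul, Finset.sum_apply] at h1
  simp only [hact, one_mul] at h1
  rw [MonoidHom.transfer_def φ T]
  have h2 : ∏ q : Q, (φ ⟨_, hmem g q⟩ : A) = 1 := by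
    have := congrArg Additive.toMul h1
    rwa [toMul_sum, toMul_zero] at this
  rw [← h2]
  unfold Subgroup.leftTransversals.diff
  dsimp only
  refine @Fintype.prod_equiv _ _ _ (_) (_) _ (Equiv.inv Q) _ _ fun q => ?_
  refine congrArg φ (Subtype.ext ?_)
  show (T.2.leftQuotientEquiv q : G)⁻¹ * ((g • T).2.leftQuotientEquiv q : G) =
    s q⁻¹ * g * (s (q⁻¹ * π g))⁻¹
  refine (congrArg ((T.2.leftQuotientEquiv q : G)⁻¹ * ·)
    (Subgroup.smul_apply_eq_smul_apply_inv_smul g T q)).trans ?_
  have hq : @HSMul.hSMul G (G ⧸ commutator G) _ _ g⁻¹ q = (q⁻¹ * π g)⁻¹ := by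
    induction q using QuotientGroup.induction_on with
    | H x =>
      show π (g⁻¹ * x) = ((π x)⁻¹ * π g)⁻¹
      rw [mul_inv_rev, inv_inv, map_mul, map_inv]
  simp only [s, inv_inv, smul_eq_mul]
  rw [hq, mul_assoc]
  congr 4
  exact (inv_inv q).symm

end FA.PrincipalIdeal
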